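/-
GATE-Z / node (HRED) (helper42), abstract part: BOUNDED UNIT REPRESENTATIVES of `ker r_*`.

Abstract frame of `GJ/S37/LSpaceRed.lean` (`R : RedData K F k Ft`, `H : LSpaceHyp R g c`, `rOf H`
the place reduction map).  If `D` is a divisor with `r_* D = 0`, there is a Gauss unit `y ∈ Rw` with
reduction `1` and `div y = D + E` where `‖E‖₁ ≤ 2 (c + 1)` — a bound that does not depend on `D`.

Proof: `G := (c+1) P₀`; `dim L(G - D) = dim L(G) > 0`, so there is `v ≠ 0` in `L(G - D)`, scaled
to a unit of `Rw`; `D⁺ := G - D + div v ≥ 0` has degree `c + 1`, so `red (L(D⁺) ∩ Rw) = L(r_* D⁺)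
= L(r_* G + div ṽ) ∋ ṽ⁻¹`; a lift `x` of `ṽ⁻¹` in `L(D⁺) ∩ Rw` gives `y := x v`.
-/
import Mathlib
import Fermat.Agent.GJ.S37.LSpaceRed
import Fermat.Agent.GJ.S37.BoundedRR

set_option autoImplicit false

noncomputable section

open AlgebraicCurve

namespace Fermat.Agent.GZ.HRed.UnitRep

open Fermat.Agent.RRh45 Fermat.Agent.GJ.S37MinDiv Fermat.Agent.GJ.J1 Fermat.Agent.GJ.S37LSpace
  Fermat.Agent.GJ.S37Bounded Fermat.Agent.GJ.S37BoundedRR

variable {K F k Ft : Type*} [Field K] [Field F] [Algebra K F] [Field k] [Field Ft] [Algebra k Ft]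

/-- push-forward along a map of places preserves the degree when all places have degree one. -/
theorem degree_mapDomain_of_deg_one {r : Place K F → Place k Ft}
    (hF : ∀ P : Place K F, P.deg = 1) (hFt : ∀ Q : Place k Ft, Q.deg = 1) (D : Divisor K F) :
    Divisor.degree (Finsupp.mapDomain r D) = Divisor.degree D := by
  induction D using Finsupp.induction with
  | zero => simp
  | single_add P n D _ _ ih =>
    rw [Finsupp.mapDomain_add, map_add, map_add, ih, Finsupp.mapDomain_single,
      Divisor.degree_single, Divisor.degree_single, hF, hFt]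

variable {R : RedData K F k Ft} {g c : ℤ}
variable [FiniteResidues K F] [HasPrincipalDivisors K F] [Nonempty (Place K F)]
variable [FiniteResidues k Ft] [HasPrincipalDivisors k Ft] [Nonempty (Place k Ft)]
variable [Infinite k]

/-- **bounded unit representatives.**  Every divisor `D` with `r_* D = 0` is, up to a divisor `E`
of `ℓ¹`-norm `≤ 2 (c + 1)`, the divisor of a function `y ∈ Rw` with reduction `1`. -/
theorem exists_unit_rep (H : LSpaceHyp R g c)
    (hunram : ∀ x : F, x ≠ 0 → ∃ a : K, a ≠ 0 ∧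
      x / algebraMap K F a ∈ R.Rw ∧ (x / algebraMap K F a)⁻¹ ∈ R.Rw)
    {D : Divisor K F} (hD : Finsupp.mapDomain (rOf H) D = 0) :
    ∃ (y : R.Rw) (Dy E : Divisor K F), R.red y = 1 ∧ (∀ P : Place K F, Dy P = P.ord (y : F)) ∧
      Dy = D + E ∧ norm1 E ≤ 2 * (c + 1).toNat := by
  classical
  have hc := H.c_nonneg
  obtain ⟨P₀⟩ := ‹Nonempty (Place K F)›
  set M : ℕ := (c + 1).toNat with hM
  have hMc : (M : ℤ) = c + 1 := Int.toNat_of_nonneg (by omega)
  set G : Divisor K F := Finsupp.single P₀ (M : ℤ) with hG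
  have hG0 : 0 ≤ G := Finsupp.single_nonneg.mpr (by positivity)
  have hdegG : Divisor.degree G = M := degree_single_nat H P₀ M
  have hdegD : Divisor.degree D = 0 := by
    have := degree_mapDomain_of_deg_one (r := rOf H) H.degF H.degFt D
    rw [hD, map_zero] at this
    exact this.symm
  -- dimensions
  have hdim : (Module.finrank K (riemannRochSpace (G - D)) : ℤ) = M + 1 - g := by
    rw [H.rrF (G - D) (by rw [map_sub, hdegG, hdegD]; omega), map_sub, hdegG, hdegD]; ring
  have hdimG : (Module.finrank K (riemannRochSpace G) : ℤ) = M + 1 - g := by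
    rw [H.rrF G (by rw [hdegG]; omega), hdegG]
  have hposG : 0 < Module.finrank K (riemannRochSpace G) := by
    have : Nontrivial (riemannRochSpace G) :=
      ⟨⟨⟨1, one_mem_riemannRochSpace hG0⟩, 0, fun h => one_ne_zero (congrArg Subtype.val h)⟩⟩
    exact Module.finrank_pos
  have hpos : 0 < Module.finrank K (riemannRochSpace (G - D)) := by
    have : (0 : ℤ) < Module.finrank K (riemannRochSpace (G - D)) := by
      rw [hdim, ← hdimG]; exact_mod_cast hposG
    exact_mod_cast this
  have hnt : Nontrivial (riemannRochSpace (G - D)) := Module.nontrivial_of_finrank_pos hpos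
  obtain ⟨⟨v, hvL⟩, hv0'⟩ := exists_ne (0 : riemannRochSpace (G - D))
  have hv0 : v ≠ 0 := fun h => hv0' (Subtype.ext h)
  -- scale to a unit of `Rw`
  obtain ⟨a, ha, hva, hvai⟩ := hunram v hv0
  set v' : F := v / algebraMap K F a with hv'
  have haF : algebraMap K F a ≠ 0 := (map_ne_zero _).mpr ha
  have hv'0 : v' ≠ 0 := div_ne_zero hv0 haF
  have hv'L : v' ∈ riemannRochSpace (G - D) := by
    have : v' = (a⁻¹ : K) • v := by
      rw [hv', Algebra.smul_def, map_inv₀, div_eq_inv_mul]
    rw [this]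
    exact Submodule.smul_mem _ _ hvL
  set u : R.Rw := ⟨v', hva⟩ with hu
  have hunit : IsUnit u :=
    ⟨⟨u, ⟨v'⁻¹, hvai⟩, Subtype.ext (mul_inv_cancel₀ hv'0), Subtype.ext (inv_mul_cancel₀ hv'0)⟩,
      rfl⟩
  have hured : R.red u ≠ 0 := by
    intro h0
    rw [R.red_eq_zero_iff] at h0
    exact (IsLocalRing.mem_maximalIdeal u).mp h0 hunit
  -- the effective divisor `D⁺`
  obtain ⟨Dv, hDv, hdegDv⟩ := HasPrincipalDivisors.exists_divisor (K := K) v' hv'0
  set Dp : Divisor K F := G - D + Dv with hDp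
  have hDp0 : 0 ≤ Dp := by
    rw [Finsupp.le_def]
    intro P
    have := (mem_riemannRochSpace_iff.mp hv'L P).resolve_left hv'0
    rw [hDp, Finsupp.add_apply, hDv P]
    simp only [Finsupp.coe_zero, Pi.zero_apply]
    omega
  have hDpdeg : c + 1 ≤ Divisor.degree Dp := by
    rw [hDp, map_add, map_sub, hdegG, hdegD, hdegDv]; omega
  obtain ⟨-, -, hV⟩ := redSpace_eq H hDp0 hDpdeg
  -- the push-forward of `D⁺`
  have hpush : ∀ Q : Place k Ft, Finsupp.mapDomain (rOf H) Dp Q =
      Finsupp.single (rOf H P₀) (M : ℤ) Q + Q.ord (R.red u) := by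
    intro Q
    have h1 := mapDomain_rOf_principal H hured (Dy := Dv) hDv Q
    rw [hDp, Finsupp.mapDomain_add, ← Finsupp.mapDomain.addMonoidHom_apply, map_sub,
      Finsupp.mapDomain.addMonoidHom_apply, Finsupp.mapDomain.addMonoidHom_apply, hD, sub_zero,
      Finsupp.add_apply, h1, hG, Finsupp.mapDomain_single]
  -- `ṽ⁻¹ ∈ L(r_* D⁺)`
  have hinv : (R.red u)⁻¹ ∈ riemannRochSpace (Finsupp.mapDomain (rOf H) Dp) := by
    rw [mem_riemannRochSpace_iff]
    intro Q
    right
    rw [hpush Q, Place.ord_inv]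
    have : (0 : ℤ) ≤ Finsupp.single (rOf H P₀) (M : ℤ) Q := by
      rw [Finsupp.single_apply]; split_ifs <;> positivity
    omega
  rw [← hV] at hinv
  obtain ⟨x, hxL, hxred⟩ := hinv
  have hxred0 : R.red x ≠ 0 := by rw [hxred]; exact inv_ne_zero hured
  have hx0 : (x : F) ≠ 0 := fun h => hxred0 (by rw [show x = 0 from Subtype.ext h, map_zero])
  -- the function `y`
  refine ⟨x * u, ?_⟩
  have hy0 : ((x * u : R.Rw) : F) ≠ 0 := mul_ne_zero hx0 hv'0
  obtain ⟨Dy, hDy, hdegDy⟩ := HasPrincipalDivisors.exists_divisor (K := K) ((x * u : R.Rw) : F) hy0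
  refine ⟨Dy, Dy - D, ?_, hDy, by abel, ?_⟩
  · rw [map_mul, hxred, inv_mul_cancel₀ hured]
  · -- `E + G ≥ 0` of degree `M`
    have hEG0 : 0 ≤ Dy - D + G := by
      rw [Finsupp.le_def]
      intro P
      have h1 := (mem_riemannRochSpace_iff.mp hxL P).resolve_left hx0
      have h2 : Dy P = P.ord (x : F) + P.ord v' := by
        rw [hDy P]
        exact P.ord_mul hx0 hv'0
      rw [hDp, Finsupp.add_apply, Finsupp.sub_apply, hDv P] at h1
      rw [Finsupp.add_apply, Finsupp.sub_apply, h2]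
      simp only [Finsupp.coe_zero, Pi.zero_apply]
      omega
    have hEGdeg : Divisor.degree (Dy - D + G) = M := by
      rw [map_add, map_sub, hdegDy, hdegD, hdegG]; ring
    have h1 := norm1_le_degree hEG0
    rw [hEGdeg] at h1
    have h2 : norm1 (Dy - D + G) ≤ M := by exact_mod_cast h1
    have h3 : Dy - D = (Dy - D + G) + Finsupp.single P₀ (-(M : ℤ)) := by
      rw [hG, Finsupp.single_neg]; abel
    rw [h3]
    refine (norm1_add_le _ _).trans ?_
    rw [norm1_single, Int.natAbs_neg, Int.natAbs_natCast]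
    omega

end Fermat.Agent.GZ.HRed.UnitRep
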