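/-
GATE-Z / node (HRED) (helper42): **the Hecke operators preserve the kernel of reduction.**

For a level `N`, a valuation subring `A` of `ℚ̄` at which `X₀(N)` has good reduction in the sense of
the L-space frame (`hle`, `H : LSpaceHyp (redDataFull N A hle) g c`), reduction inputs
`h : ReductionInputsModL A N` and a prime `q ∤ N` (`q` = the residue characteristic ALLOWED):

  `reductionModL A N z = 0 → reductionModL A N (heckeOperatorBar N q z) = 0`.

No Hecke correspondence on the special fibre is constructed.  Proof: `K₀ := ker r_* ⊂ Div(X₀(N))`.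
Every `D ∈ K₀` is `div y - E` with `y` a principal unit of the Gauss valuation (`red y = 1`) and
`‖E‖₁ ≤ 2 (c + 1)` (`UnitRep.exists_unit_rep`).  Writing `y = a / b` with `a, b ∈ A((q))` of equal
reduction, `r_* T_q (div a) = div (heckeNorm q ã) = div (heckeNorm q b̃) = r_* T_q (div b)`
(`HN.heckeDivBar_eq_ord_heckeNormF`, `Kum.coeffMap_heckeNorm` and the specification of `r`), so
`r_* T_q D = - r_* T_q E` is bounded on the GROUP `K₀`, hence zero (`S37Bounded.eq_zero_of_bounded`).
Finally every class of `ker (reductionModL A N)` is represented in `K₀` up to a principal divisor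
(`K2.KerGen.exists_principal_sub`), and `T_q` preserves principal divisors.
-/
import Mathlib
import Fermat.Agent.GJ.S37.HRel
import Fermat.Agent.GR.W.K2.KerGen
import Fermat.Agent.GK.UqKronecker
import Fermat.Agent.GZ.HRed.UnitRep

set_option autoImplicit false
set_option linter.style.haveILetI false
set_option synthInstance.maxHeartbeats 400000
set_option maxHeartbeats 1000000

noncomputable section

namespace Fermat.Agent.GZ.HRed

open AlgebraicCurve ModularCurve HahnSeries Fermat.Agent.S24 Fermat.Agent.GJ.HN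
open Fermat.Agent.GJ.S37Bounded Fermat.Agent.GJ.S37BoundedRR Fermat.Agent.GJ.J3 Fermat.Agent.GJ
open Fermat.Agent.GJ.J1 Fermat.Agent.GJ.J1.Val Fermat.Agent.GJ.S37LSpace
  Fermat.Agent.GJ.S37Bridge Fermat.Agent.RRh45

/-! ### `r_* (T_ℓ (div y)) = div (red (heckeNorm y))` for Gauss-integral `y` -/

section Along

variable (A : ValuationSubring Kbar) {k : Type*} [Field k] (π : A →+* k)
  (N ℓ : ℕ) [NeZero N] [hℓ : Fact ℓ.Prime]

/-- for an `A`-integral series `y` of the function field with `ỹ ≠ 0`, the push-forward of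
`T_ℓ (div y)` is the divisor of the reduction of the Hecke norm of `y`. -/
theorem mapDomain_heckeDivBar_ord (hℓN : ¬ ℓ ∣ N)
    {r : Place Kbar (FN N) → Place k (modularFunctionFieldFullC k N)}
    (hr : IsPlaceReductionAlong A π N r)
    (hα : HeckeAlphaBarIntegral Kbar N ℓ) (hβ : HeckeBetaBarIntegral Kbar N ℓ)
    [HasPrincipalDivisors Kbar (FN (N * ℓ))]
    (hfin : FiniteAlong Kbar (heckeAlphaBar Kbar N ℓ))
    (hNF : NormFormulaAlong Kbar (heckeAlphaBar Kbar N ℓ) hfin)
    (y0 : LaurentSeries A) (hy : coeffMap A.subtype y0 ∈ modularFunctionFieldBar N)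
    (hne : coeffMap π y0 ≠ 0)
    (hzk : coeffMap π (Kum.heckeNorm ℓ y0) ∈ modularFunctionFieldFullC k N)
    {D : Divisor Kbar (FN N)} (hDy : ∀ P, D P = P.ord (⟨coeffMap A.subtype y0, hy⟩ : FN N))
    (Q : Place k (modularFunctionFieldFullC k N)) :
    Finsupp.mapDomain r (heckeDivBar hα hβ D) Q =
      Q.ord (⟨coeffMap π (Kum.heckeNorm ℓ y0), hzk⟩ : modularFunctionFieldFullC k N) := by
  set y : FN N := ⟨coeffMap A.subtype y0, hy⟩ with hydef
  have hy0 : y ≠ 0 := by
    intro h
    apply hne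
    rw [Fermat.Agent.GJ.S37.HRel.eq_zero_of_coeffMap_subtype_eq_zero A
      (congrArg Subtype.val h), map_zero]
  set z0 : LaurentSeries A := Kum.heckeNorm ℓ y0 with hz0
  have hz : coeffMap A.subtype z0 = ((heckeNormF N ℓ y : FN N) : LaurentSeries Kbar) := by
    rw [hz0, Kum.coeffMap_heckeNorm, coe_heckeNormF N ℓ hℓN y]
  have hzmem : coeffMap A.subtype z0 ∈ modularFunctionFieldBar N := by
    rw [hz]; exact (heckeNormF N ℓ y).2
  have hzt0 : coeffMap π z0 ≠ 0 := by
    rw [hz0, Kum.coeffMap_heckeNorm]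
    exact Kum.heckeNorm_ne_zero_of_field ℓ hne
  have hE : ∀ P, heckeDivBar hα hβ D P = P.ord (⟨coeffMap A.subtype z0, hzmem⟩ : FN N) := by
    intro P
    rw [heckeDivBar_eq_ord_heckeNormF N ℓ hα hβ hfin hNF y hy0 D hDy P]
    congr 1
    exact Subtype.ext hz.symm
  exact hr.2 z0 hzmem hzk hzt0 _ hE Q

/-- the Hecke norm of an integral series of the function field is one. -/
theorem coeffMap_heckeNorm_mem (hℓN : ¬ ℓ ∣ N) (y0 : LaurentSeries A)
    (hy : coeffMap A.subtype y0 ∈ modularFunctionFieldBar N) :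
    coeffMap A.subtype (Kum.heckeNorm ℓ y0) ∈ modularFunctionFieldBar N := by
  have hz : coeffMap A.subtype (Kum.heckeNorm ℓ y0) =
      ((heckeNormF N ℓ (⟨coeffMap A.subtype y0, hy⟩ : FN N) : FN N) : LaurentSeries Kbar) := by
    rw [Kum.coeffMap_heckeNorm, coe_heckeNormF N ℓ hℓN]
  rw [hz]
  exact (heckeNormF N ℓ _).2

/-- the Hecke correspondence preserves principal divisors. -/
theorem heckeDivBar_mem_principal (hℓN : ¬ ℓ ∣ N)
    (hα : HeckeAlphaBarIntegral Kbar N ℓ) (hβ : HeckeBetaBarIntegral Kbar N ℓ)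
    [HasPrincipalDivisors Kbar (FN (N * ℓ))]
    (hfin : FiniteAlong Kbar (heckeAlphaBar Kbar N ℓ))
    (hNF : NormFormulaAlong Kbar (heckeAlphaBar Kbar N ℓ) hfin)
    {D : Divisor Kbar (FN N)} (hD : D ∈ Divisor.principal (K := Kbar) (F := FN N)) :
    heckeDivBar hα hβ D ∈ Divisor.principal (K := Kbar) (F := FN N) := by
  rw [Divisor.mem_principal] at hD ⊢
  obtain ⟨u, hu0, hDu⟩ := hD
  exact ⟨heckeNormF N ℓ u, heckeNormF_ne_zero N ℓ hℓN hu0,
    fun P => heckeDivBar_eq_ord_heckeNormF N ℓ hα hβ hfin hNF u hu0 D hDu P⟩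

end Along

/-! ### the frame of `GJ/S37/Bridge.lean` -/

section ModL

variable {N : ℕ} [NeZero N] {A : ValuationSubring (AlgebraicClosure ℚ)} (ℓ : ℕ)
  [hℓ : Fact ℓ.Prime]

section Inst

variable [FiniteResidues (AlgebraicClosure ℚ) (modularFunctionFieldBar N)]
  [HasPrincipalDivisors (AlgebraicClosure ℚ) (modularFunctionFieldBar N)]
  [Nonempty (Place (AlgebraicClosure ℚ) (modularFunctionFieldBar N))]
  [FiniteResidues (IsLocalRing.ResidueField A)
    (modularFunctionFieldFullC (IsLocalRing.ResidueField A) N)]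
  [HasPrincipalDivisors (IsLocalRing.ResidueField A)
    (modularFunctionFieldFullC (IsLocalRing.ResidueField A) N)]
  [Nonempty (Place (IsLocalRing.ResidueField A)
    (modularFunctionFieldFullC (IsLocalRing.ResidueField A) N))]
  [Infinite (IsLocalRing.ResidueField A)]

/-- **the divisor of a principal unit dies under `r_* ∘ T_ℓ`.** -/
theorem mapDomain_heckeDivBar_of_red_eq_one
    (hle : FresBar N A ≤ modularFunctionFieldFullC (IsLocalRing.ResidueField A) N)
    {g c : ℤ} (H : LSpaceHyp (redDataFull N A hle) g c) (hℓN : ¬ ℓ ∣ N)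
    (hα : HeckeAlphaBarIntegral Kbar N ℓ) (hβ : HeckeBetaBarIntegral Kbar N ℓ)
    [HasPrincipalDivisors Kbar (FN (N * ℓ))]
    (hfin : FiniteAlong Kbar (heckeAlphaBar Kbar N ℓ))
    (hNF : NormFormulaAlong Kbar (heckeAlphaBar Kbar N ℓ) hfin)
    (y : (redDataFull N A hle).Rw) (hy1 : (redDataFull N A hle).red y = 1)
    {Dy : Divisor Kbar (FN N)} (hDy : ∀ P, Dy P = P.ord ((y : FN N))) :
    Finsupp.mapDomain (rOf H) (heckeDivBar hα hβ Dy) = 0 := by
  have hr : IsPlaceReductionAlong A (IsLocalRing.residue A) N (rOf H) :=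
    isPlaceReductionModL_rOf hle H
  -- `y = a / b` with `a, b ∈ A((q))` of equal nonzero reduction
  have hprin : Fermat.Agent.GK.UqKronecker.IsPrin (hasGaussFrac_bar N A) (y : FN N) := by
    refine ⟨y.2, ?_⟩
    have h1 := congrArg Subtype.val hy1
    exact h1
  obtain ⟨a, b, ⟨ha, hb, hb0, hrel⟩, hab⟩ := hprin.exists_frac
  have ha0 : rd A a ≠ 0 := by rw [hab]; exact hb0
  set a' : FN N := ⟨emb A a, ha⟩ with ha'
  set b' : FN N := ⟨emb A b, hb⟩ with hb'
  have ha'0 : a' ≠ 0 := by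
    intro h
    apply ha0
    rw [Fermat.Agent.GJ.S37.HRel.eq_zero_of_coeffMap_subtype_eq_zero A
      (congrArg Subtype.val h), map_zero]
  have hb'0 : b' ≠ 0 := by
    intro h
    apply hb0
    rw [Fermat.Agent.GJ.S37.HRel.eq_zero_of_coeffMap_subtype_eq_zero A
      (congrArg Subtype.val h), map_zero]
  have hyb : (y : FN N) * b' = a' := Subtype.ext hrel
  have hy0 : (y : FN N) ≠ 0 := by
    intro h
    rw [h, zero_mul] at hyb
    exact ha'0 hyb.symm
  obtain ⟨Da, hDa, -⟩ := HasPrincipalDivisors.exists_divisor (K := AlgebraicClosure ℚ) a' ha'0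
  obtain ⟨Db, hDb, -⟩ := HasPrincipalDivisors.exists_divisor (K := AlgebraicClosure ℚ) b' hb'0
  have hDeq : Dy = Da - Db := by
    ext P
    rw [Finsupp.sub_apply, hDy P, hDa P, hDb P]
    have h1 := congrArg P.ord hyb
    rw [P.ord_mul hy0 hb'0] at h1
    omega
  -- the reductions of the two Hecke norms
  have hma := coeffMap_residue_mem_full hle (coeffMap_heckeNorm_mem A N ℓ hℓN a ha)
  have hmb := coeffMap_residue_mem_full hle (coeffMap_heckeNorm_mem A N ℓ hℓN b hb)
  have heq : coeffMap (IsLocalRing.residue A) (Kum.heckeNorm ℓ a) =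
      coeffMap (IsLocalRing.residue A) (Kum.heckeNorm ℓ b) := by
    rw [Kum.coeffMap_heckeNorm, Kum.coeffMap_heckeNorm]
    exact congrArg (Kum.heckeNorm ℓ) hab
  rw [hDeq, map_sub]
  ext Q
  rw [← Finsupp.mapDomain.addMonoidHom_apply, map_sub, Finsupp.mapDomain.addMonoidHom_apply,
    Finsupp.mapDomain.addMonoidHom_apply, Finsupp.sub_apply,
    mapDomain_heckeDivBar_ord A (IsLocalRing.residue A) N ℓ hℓN hr hα hβ hfin hNF a ha ha0 hma
      hDa Q,
    mapDomain_heckeDivBar_ord A (IsLocalRing.residue A) N ℓ hℓN hr hα hβ hfin hNF b hb hb0 hmb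
      hDb Q, Finsupp.zero_apply]
  have : (⟨coeffMap (IsLocalRing.residue A) (Kum.heckeNorm ℓ a), hma⟩ :
      modularFunctionFieldFullC (IsLocalRing.ResidueField A) N) =
      ⟨coeffMap (IsLocalRing.residue A) (Kum.heckeNorm ℓ b), hmb⟩ := Subtype.ext heq
  rw [this, sub_self]

/-- `r_* ∘ T_ℓ` is bounded on places. -/
theorem norm1_mapDomain_heckeDivBar_single_le
    (r : Place Kbar (FN N) → Place (IsLocalRing.ResidueField A)
      (modularFunctionFieldFullC (IsLocalRing.ResidueField A) N))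
    (hα : HeckeAlphaBarIntegral Kbar N ℓ) (hβ : HeckeBetaBarIntegral Kbar N ℓ)
    [HasPrincipalDivisors Kbar (FN (N * ℓ))]
    (hFI : FundamentalIdentityAlong Kbar (heckeBetaBar Kbar N ℓ) hβ) (P : Place Kbar (FN N)) :
    norm1 (((Finsupp.mapDomain.addMonoidHom r).comp (heckeDivBar hα hβ))
      (Finsupp.single P 1)) ≤ finrankAlong Kbar (heckeBetaBar Kbar N ℓ) := by
  classical
  rw [AddMonoidHom.comp_apply, Finsupp.mapDomain.addMonoidHom_apply]
  refine (Fermat.Agent.GJ.S37.HRel.norm1_mapDomain_le r _).trans ?_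
  have hpos : 0 ≤ heckeDivBar hα hβ (Finsupp.single P 1) := by
    apply Fermat.Agent.GJ.S37.HRel.correspondence_nonneg
    rw [Finsupp.le_def]
    intro Q
    rw [Finsupp.zero_apply, Finsupp.single_apply]
    split_ifs <;> norm_num
  have h1 := norm1_le_degree hpos
  have h2 : Divisor.degree (heckeDivBar hα hβ (Finsupp.single P 1)) =
      (finrankAlong Kbar (heckeBetaBar Kbar N ℓ) : ℤ) := by
    have h3 := Divisor.degree_correspondence (heckeBetaBar Kbar N ℓ) (heckeAlphaBar Kbar N ℓ)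
      hβ hα hFI (Finsupp.single P 1)
    rw [Divisor.degree_single, Fermat.Agent.RR.ModularBar.deg_eq_one N P] at h3
    have h4 : heckeDivBar hα hβ = Divisor.correspondence (heckeBetaBar Kbar N ℓ)
      (heckeAlphaBar Kbar N ℓ) hβ hα := rfl
    rw [h4, h3]
    simp
  rw [h2] at h1
  exact_mod_cast h1

/-- **`T_ℓ` preserves `ker r_*`** (divisor level). -/
theorem mapDomain_heckeDivBar_eq_zero
    (hle : FresBar N A ≤ modularFunctionFieldFullC (IsLocalRing.ResidueField A) N)
    {g c : ℤ} (H : LSpaceHyp (redDataFull N A hle) g c) (hℓN : ¬ ℓ ∣ N)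
    (hα : HeckeAlphaBarIntegral Kbar N ℓ) (hβ : HeckeBetaBarIntegral Kbar N ℓ)
    [HasPrincipalDivisors Kbar (FN (N * ℓ))]
    (hfin : FiniteAlong Kbar (heckeAlphaBar Kbar N ℓ))
    (hNF : NormFormulaAlong Kbar (heckeAlphaBar Kbar N ℓ) hfin)
    (hFI : FundamentalIdentityAlong Kbar (heckeBetaBar Kbar N ℓ) hβ)
    {D : Divisor Kbar (FN N)} (hD : Finsupp.mapDomain (rOf H) D = 0) :
    Finsupp.mapDomain (rOf H) (heckeDivBar hα hβ D) = 0 := by
  classical
  set T : Divisor Kbar (FN N) →+ (Place (IsLocalRing.ResidueField A)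
      (modularFunctionFieldFullC (IsLocalRing.ResidueField A) N) →₀ ℤ) :=
    (Finsupp.mapDomain.addMonoidHom (rOf H)).comp (heckeDivBar hα hβ) with hT
  have hTapp : ∀ E, T E = Finsupp.mapDomain (rOf H) (heckeDivBar hα hβ E) := fun E => rfl
  set B : ℕ := finrankAlong Kbar (heckeBetaBar Kbar N ℓ) with hB
  have hTB : ∀ P : Place Kbar (FN N), norm1 (T (Finsupp.single P 1)) ≤ B :=
    fun P => norm1_mapDomain_heckeDivBar_single_le ℓ (rOf H) hα hβ hFI P
  set K₀ : AddSubgroup (Divisor Kbar (FN N)) :=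
    (Finsupp.mapDomain.addMonoidHom (rOf H)).ker with hK₀
  have hunram : ∀ x : FN N, x ≠ 0 → ∃ a : Kbar, a ≠ 0 ∧
      x / algebraMap Kbar (FN N) a ∈ (redDataFull N A hle).Rw ∧
      (x / algebraMap Kbar (FN N) a)⁻¹ ∈ (redDataFull N A hle).Rw :=
    Val.unramified A (modularFunctionFieldBar N) (hasGaussFrac_bar N A)
  have hbd : ∀ E : K₀, norm1 ((T.comp K₀.subtype) E) ≤ 2 * (c + 1).toNat * B := by
    intro E
    have hE0 : Finsupp.mapDomain (rOf H) (E : Divisor Kbar (FN N)) = 0 := E.2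
    obtain ⟨y, Dy, E', hy1, hDy, hDyE, hE'⟩ :=
      Fermat.Agent.GZ.HRed.UnitRep.exists_unit_rep H hunram hE0
    have h0 : T Dy = 0 :=
      mapDomain_heckeDivBar_of_red_eq_one ℓ hle H hℓN hα hβ hfin hNF y hy1 hDy
    have h1 : T (E : Divisor Kbar (FN N)) = -T E' := by
      have : (E : Divisor Kbar (FN N)) = Dy - E' := by rw [hDyE]; abel
      rw [this, map_sub, h0, zero_sub]
    rw [AddMonoidHom.comp_apply, AddSubgroup.coe_subtype, h1,
      Fermat.Agent.GJ.S37.HRel.norm1_neg]
    exact (norm1_map_le T B hTB E').trans (Nat.mul_le_mul_right _ hE')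
  have hmem : D ∈ K₀ := hD
  have := eq_zero_of_bounded (T.comp K₀.subtype) _ hbd ⟨D, hmem⟩
  exact this

end Inst

section Final

open Fermat.Agent.GJ.FibreCurve Fermat.Agent.GJ.FF.Fibre Fermat.Agent.GJ.ResidueAlgClosed

/-- **(HRED), frame form.**  In the good-reduction frame `hle`, `H : LSpaceHyp (redDataFull N A hle)`
(any reduction inputs `h`), the Hecke operator `T_q`, `q ∤ N` prime, preserves the kernel of
`reductionModL A N`.  The prime `q` MAY be the residue characteristic of `A`. -/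
theorem reductionModL_hecke_eq_zero_full
    (hle : FresBar N A ≤ modularFunctionFieldFullC (IsLocalRing.ResidueField A) N)
    {g c : ℤ} (H : LSpaceHyp (redDataFull N A hle) g c) (h : ReductionInputsModL A N)
    (q : Nat.Primes) (hqN : ¬ (q : ℕ) ∣ N) (z : JZero N) (hz : reductionModL A N z = 0) :
    reductionModL A N (heckeOperatorBar N q z) = 0 := by
  have : IsGen (AlgebraicClosure ℚ) (jF N) := S24_helper62.isGen_jF N
  have h1 : FiniteResidues (AlgebraicClosure ℚ) (modularFunctionFieldBar N) :=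
    Fermat.Agent.GJ.FF.finiteResidues (K := AlgebraicClosure ℚ) (jF N)
  have h2 := finiteResidues_fibre (k := IsLocalRing.ResidueField A) N A (IsLocalRing.residue A)
  have h3 := hasPrincipalDivisors_fibre' (k := IsLocalRing.ResidueField A) N A
    (IsLocalRing.residue A)
  have h4 := nonempty_place_fibre' (k := IsLocalRing.ResidueField A) N A (IsLocalRing.residue A)
  have h5 := infinite_residueField (A := A)
  have hq : Fact (q : ℕ).Prime := ⟨q.2⟩
  have hr : placeReductionModL h = rOf H :=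
    Fermat.Agent.GJ.S37UniqFrac.eq_rOf (isPlaceReductionModL_placeReductionModL h) hle H
  obtain ⟨D, rfl⟩ := Pic0.mk_surjective z
  obtain ⟨hα, hβ, hP, hfin, hFI, hNF, hop⟩ :=
    Fermat.Agent.GJ.HInputs.exists_heckeOperatorBar_eq N q
  haveI := hP
  have hmk : heckePic0Bar hα hβ hFI hfin hNF (Pic0.mk D) =
      Pic0.mk (Pic0.degZeroCorrespondence (heckeBetaBar Kbar N q) (heckeAlphaBar Kbar N q)
        hβ hα hFI D) := rfl
  rw [reductionModL_mk h D] at hz
  have hD : Finsupp.mapDomain (rOf H)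
      (D : Divisor (AlgebraicClosure ℚ) (modularFunctionFieldBar N)) ∈
        Divisor.principal (K := IsLocalRing.ResidueField A)
          (F := modularFunctionFieldFullC (IsLocalRing.ResidueField A) N) := by
    have h0 := (QuotientAddGroup.eq_zero_iff _).mp hz
    rw [AddSubgroup.mem_addSubgroupOf, coe_reductionDegZeroAlong, hr] at h0
    exact h0
  obtain ⟨Dy, hDy, h0⟩ := Fermat.Agent.GR.W.K2.KerGen.exists_principal_sub H hD
  rw [hop, hmk, reductionModL_mk h]
  refine (QuotientAddGroup.eq_zero_iff _).mpr ?_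
  rw [AddSubgroup.mem_addSubgroupOf, coe_reductionDegZeroAlong, hr]
  have hcoe : ((Pic0.degZeroCorrespondence (heckeBetaBar Kbar N q) (heckeAlphaBar Kbar N q)
      hβ hα hFI D : Divisor.degZero (K := Kbar) (F := FN N)) : Divisor Kbar (FN N)) =
      heckeDivBar hα hβ (D : Divisor Kbar (FN N)) := rfl
  rw [hcoe]
  have hsplit : heckeDivBar hα hβ (D : Divisor Kbar (FN N)) =
      heckeDivBar hα hβ ((D : Divisor Kbar (FN N)) - Dy) + heckeDivBar hα hβ Dy := by
    rw [← map_add]
    congr 1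
    abel
  rw [hsplit, Finsupp.mapDomain_add,
    mapDomain_heckeDivBar_eq_zero (q : ℕ) hle H hqN hα hβ hfin hNF hFI h0, zero_add]
  exact (isPlaceReductionModL_rOf hle H).mapDomain_mem_principal
    (principalGeneratedByIntegral hle)
    (heckeDivBar_mem_principal N (q : ℕ) hqN hα hβ hfin hNF hDy)

/-- **(HRED), good-level form**: `ℓ ∤ N` (`3 ∣ N` if `ℓ = 2`, `2 ∣ N` if `ℓ = 3`), `A` over `ℓ`, ANY
reduction inputs `h`, `q ∤ N` prime (`q = ℓ` allowed). -/
theorem reductionModL_hecke_eq_zero {ℓ' : ℕ} (hℓ' : ℓ'.Prime) (hN : ¬ ℓ' ∣ N)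
    (h2 : ℓ' = 2 → 3 ∣ N) (h3 : ℓ' = 3 → 2 ∣ N) (hA : A.LiesOverPrime ℓ')
    (h : ReductionInputsModL A N) (q : Nat.Primes) (hqN : ¬ (q : ℕ) ∣ N) (z : JZero N)
    (hz : reductionModL A N z = 0) :
    reductionModL A N (heckeOperatorBar N q z) = 0 := by
  have : Fact ℓ'.Prime := ⟨hℓ'⟩
  obtain ⟨g, c, H⟩ := Fermat.Agent.GJ.S37LSpaceGate.lSpaceGate N hℓ' hN h2 h3 A hA
  have H' := Fermat.Agent.GJ.S37BarToFull.exists_lSpaceHyp_full hN hA H
  exact reductionModL_hecke_eq_zero_full
    (Fermat.Agent.GJ.J1.Res.FresBar_le_fullC N A hN hA) H' h q hqN z hz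

/-- the kernel of an additive map is preserved by the `ℤ`-algebra generated by endomorphisms
preserving it. -/
theorem ker_stable_of_mem_adjoin {M M' : Type*} [AddCommGroup M] [AddCommGroup M'] (f : M →+ M')
    (G : Set (Module.End ℤ M)) (hG : ∀ T ∈ G, ∀ z : M, f z = 0 → f (T z) = 0)
    {t : Module.End ℤ M} (ht : t ∈ Algebra.adjoin ℤ G) (z : M) (hz : f z = 0) : f (t z) = 0 := by
  induction ht using Algebra.adjoin_induction generalizing z with
  | mem T hT => exact hG T hT z hz
  | algebraMap n =>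
    rw [Module.algebraMap_end_apply, map_zsmul, hz, smul_zero]
  | add s t _ _ hs ht => rw [LinearMap.add_apply, map_add, hs z hz, ht z hz, add_zero]
  | mul s t _ _ hs ht => rw [Module.End.mul_apply]; exact hs _ (ht z hz)

/-- **(HRED), algebra form**, good level. -/
theorem reductionModL_adjoin_eq_zero {ℓ' : ℕ} (hℓ' : ℓ'.Prime) (hN : ¬ ℓ' ∣ N)
    (h2 : ℓ' = 2 → 3 ∣ N) (h3 : ℓ' = 3 → 2 ∣ N) (hA : A.LiesOverPrime ℓ')
    (h : ReductionInputsModL A N) {t : Module.End ℤ (JZero N)}
    (ht : t ∈ Algebra.adjoin ℤ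
      {T : Module.End ℤ (JZero N) | ∃ q : Nat.Primes, ¬ (q : ℕ) ∣ N ∧ T = heckeOperatorBar N q})
    (z : JZero N) (hz : reductionModL A N z = 0) : reductionModL A N (t z) = 0 := by
  refine ker_stable_of_mem_adjoin (reductionModL A N) _ ?_ ht z hz
  rintro T ⟨q, hqN, rfl⟩ z hz
  exact reductionModL_hecke_eq_zero hℓ' hN h2 h3 hA h q hqN z hz

end Final

end ModL

end Fermat.Agent.GZ.HRed
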