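/-
GATE-Z / node (HRED) (helper42): EXPORT of the divisor-level statement (asked by helper77, board
5973, for GATE-F / GF-EIS): in the good-reduction frame, `T_ℓ` preserves `ker r_*` on DIVISORS,
`r` spelled as `placeReductionModL h` (instance-free statement) — the `rOf H` spelling is
`HRed.mapDomain_heckeDivBar_eq_zero` in `GZ/HRed/Main.lean`.
-/
import Fermat.Agent.GZ.HRed.Main

set_option autoImplicit false
set_option synthInstance.maxHeartbeats 400000
set_option maxHeartbeats 1000000

noncomputable section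

namespace Fermat.Agent.GZ.HRed

open AlgebraicCurve ModularCurve HahnSeries Fermat.Agent.S24 Fermat.Agent.GJ.HN
open Fermat.Agent.GJ.J1 Fermat.Agent.GJ.J1.Val Fermat.Agent.GJ.S37LSpace
  Fermat.Agent.GJ.S37Bridge Fermat.Agent.RRh45
open Fermat.Agent.GJ.FibreCurve Fermat.Agent.GJ.FF.Fibre Fermat.Agent.GJ.ResidueAlgClosed

variable {N : ℕ} [NeZero N] {A : ValuationSubring (AlgebraicClosure ℚ)}

/-- **`T_ℓ` preserves `ker r_*` on divisors**, `r = placeReductionModL h`, frame form; all the Hecke
inputs are the ones of `GJ.HInputs.exists_heckeOperatorBar_eq`. -/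
theorem mapDomain_placeReductionModL_heckeDivBar_eq_zero (ℓ : ℕ) [hℓ : Fact ℓ.Prime]
    (hle : FresBar N A ≤ modularFunctionFieldFullC (IsLocalRing.ResidueField A) N)
    {g c : ℤ} (H : LSpaceHyp (redDataFull N A hle) g c) (h : ReductionInputsModL A N)
    (hℓN : ¬ ℓ ∣ N)
    (hα : HeckeAlphaBarIntegral Kbar N ℓ) (hβ : HeckeBetaBarIntegral Kbar N ℓ)
    [HasPrincipalDivisors Kbar (FN (N * ℓ))]
    (hfin : FiniteAlong Kbar (heckeAlphaBar Kbar N ℓ))
    (hNF : NormFormulaAlong Kbar (heckeAlphaBar Kbar N ℓ) hfin)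
    (hFI : FundamentalIdentityAlong Kbar (heckeBetaBar Kbar N ℓ) hβ)
    {D : Divisor Kbar (FN N)} (hD : Finsupp.mapDomain (placeReductionModL h) D = 0) :
    Finsupp.mapDomain (placeReductionModL h) (heckeDivBar hα hβ D) = 0 := by
  have : IsGen (AlgebraicClosure ℚ) (jF N) := S24_helper62.isGen_jF N
  have h1 : FiniteResidues (AlgebraicClosure ℚ) (modularFunctionFieldBar N) :=
    Fermat.Agent.GJ.FF.finiteResidues (K := AlgebraicClosure ℚ) (jF N)
  have h2 := finiteResidues_fibre (k := IsLocalRing.ResidueField A) N A (IsLocalRing.residue A)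
  have h3 := hasPrincipalDivisors_fibre' (k := IsLocalRing.ResidueField A) N A
    (IsLocalRing.residue A)
  have h4 := nonempty_place_fibre' (k := IsLocalRing.ResidueField A) N A (IsLocalRing.residue A)
  have h5 := infinite_residueField (A := A)
  have hr : placeReductionModL h = rOf H :=
    Fermat.Agent.GJ.S37UniqFrac.eq_rOf (isPlaceReductionModL_placeReductionModL h) hle H
  rw [hr] at hD ⊢
  exact mapDomain_heckeDivBar_eq_zero ℓ hle H hℓN hα hβ hfin hNF hFI hD

end Fermat.Agent.GZ.HRed
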