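/-
GATE-Z / node (HRED) (helper42): the binder `HRed p` of `GZ/Top/S15Top.lean`.

* `hRed_five_le` : the clauses `ℓ' ≥ 5` of `HRed p` are THEOREMS (frame of `lSpaceGate` at level `p`);
* `Frame23 p`    : route (A) binder = what (AUX23) exports: the good-reduction frame
                   `hle + LSpaceHyp (redDataFull p A hle) g c` at level `p` for `A` over `2` and `3`;
* `hRed_of_frame23` : `Frame23 p → HRed p` (`p` prime).
Route (B) (auxiliary levels `3p`, `2p`) uses `HRed.reductionModL_hecke_eq_zero` directly.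
-/
import Fermat.Agent.GZ.HRed.Main
import Fermat.Agent.GZ.Top.S15Top

set_option autoImplicit false

noncomputable section

namespace Fermat.Agent.GZ.HRed

open AlgebraicCurve ModularCurve
open Fermat.Agent.GJ.J1.Val Fermat.Agent.GJ.S37LSpace Fermat.Agent.GJ.S37Bridge

/-- the clauses `ℓ' ∉ {2, 3}` of `HRed p`. -/
theorem hRed_five_le {p : ℕ} [NeZero p] (hp : p.Prime) {ℓ' : ℕ} (hℓ' : ℓ'.Prime) (hℓp : ℓ' ≠ p)
    (h2 : ℓ' ≠ 2) (h3 : ℓ' ≠ 3) {A : ValuationSubring (AlgebraicClosure ℚ)}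
    (hA : A.LiesOverPrime ℓ') (h : ReductionInputsModL A p) (q : Nat.Primes) (hqp : (q : ℕ) ≠ p)
    (z : JZero p) (hz : reductionModL A p z = 0) :
    reductionModL A p (heckeOperatorBar p q z) = 0 := by
  have hqN : ¬ (q : ℕ) ∣ p := fun hd => hqp ((Nat.prime_dvd_prime_iff_eq q.2 hp).mp hd)
  have hℓN : ¬ ℓ' ∣ p := fun hd => hℓp ((Nat.prime_dvd_prime_iff_eq hℓ' hp).mp hd)
  exact reductionModL_hecke_eq_zero hℓ' hℓN (fun e => absurd e h2) (fun e => absurd e h3) hA h q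
    hqN z hz

/-- **route (A) binder**: the good-reduction frame at level `p` over `2` and `3` (AUX23). -/
def Frame23 (p : ℕ) [NeZero p] : Prop :=
  ∀ (ℓ' : ℕ), (ℓ' = 2 ∨ ℓ' = 3) → ℓ' ≠ p →
    ∀ A : ValuationSubring (AlgebraicClosure ℚ), A.LiesOverPrime ℓ' →
      ∃ (hle : FresBar p A ≤ modularFunctionFieldFullC (IsLocalRing.ResidueField A) p) (g c : ℤ),
        LSpaceHyp (redDataFull p A hle) g c

/-- **`HRed p` from the frame at `2` and `3`.** -/
theorem hRed_of_frame23 {p : ℕ} [NeZero p] (hp : p.Prime) (hF : Frame23 p) :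
    Fermat.Agent.GZ.Top.HRed p := by
  intro ℓ' hℓ' hℓp A hA h q _ hqp z hz
  have hqN : ¬ (q : ℕ) ∣ p := fun hd => hqp ((Nat.prime_dvd_prime_iff_eq q.2 hp).mp hd)
  by_cases h23 : ℓ' = 2 ∨ ℓ' = 3
  · obtain ⟨hle, g, c, H⟩ := hF ℓ' h23 hℓp A hA
    exact reductionModL_hecke_eq_zero_full hle H h q hqN z hz
  · push Not at h23
    exact hRed_five_le hp hℓ' hℓp h23.1 h23.2 hA h q hqp z hz

end Fermat.Agent.GZ.HRed
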