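/-
GATE-Z / node (HRED) (helper42): the binder `HRedGood` of `GZ/Top/S15TopB.lean` (variant B of the
top of S15) IS A THEOREM.
-/
import Fermat.Agent.GZ.HRed.Main
import Fermat.Agent.GZ.Top.S15TopB

set_option autoImplicit false

namespace Fermat.Agent.GZ.HRed

/-- **(HRED) at every good level**: the binder `HRedGood` of variant B, discharged. -/
theorem hRedGood : Fermat.Agent.GZ.Top.HRedGood :=
  fun _ _ _ hℓ' hN h2 h3 _ hA h q hqN _ z hz =>
    reductionModL_hecke_eq_zero hℓ' hN h2 h3 hA h q hqN z hz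

end Fermat.Agent.GZ.HRed
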